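/-
S38 (Ihara avoidance), local rings at `q`: the commutative-algebra core.

KEY LEMMA (Micali): an ideal generated by a regular sequence is of linear type.
`R` a commutative ring, `x : ℕ → R` such that `x m` is a non-zero-divisor modulo
`(x 0, …, x (m-1))` for every `m < r`.  If `F` is a homogeneous polynomial of degree `n` in the
variables `X 0, …, X (r-1)` with `F(x) = 0`, then `F` lies in the ideal generated by the
`x i * X j - x j * X i`, `i, j < r`.

Mathlib only.
-/
import Mathlib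

set_option autoImplicit false

open MvPolynomial

namespace Fermat.Agent.S38.H250

variable {R : Type*} [CommRing R]

/-- `F` is homogeneous of degree `n` and only involves the variables `X i`, `i < m`. -/
def HS (m n : ℕ) (F : MvPolynomial ℕ R) : Prop :=
  ∀ d : ℕ →₀ ℕ, coeff d F ≠ 0 → d.degree = n ∧ ∀ i, m ≤ i → d i = 0

theorem HS.zero (m n : ℕ) : HS m n (0 : MvPolynomial ℕ R) := by
  intro d hd; simp at hd

theorem HS.add {m n : ℕ} {F G : MvPolynomial ℕ R} (hF : HS m n F) (hG : HS m n G) :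
    HS m n (F + G) := by
  intro d hd
  by_cases h : coeff d F = 0
  · by_cases h' : coeff d G = 0
    · exact absurd (by simp [h, h']) hd
    · exact hG d h'
  · exact hF d h

theorem HS.neg {m n : ℕ} {F : MvPolynomial ℕ R} (hF : HS m n F) : HS m n (-F) := by
  intro d hd
  exact hF d (by simpa using hd)

theorem HS.sub {m n : ℕ} {F G : MvPolynomial ℕ R} (hF : HS m n F) (hG : HS m n G) :
    HS m n (F - G) := by
  rw [sub_eq_add_neg]; exact hF.add hG.neg

theorem HS.sum {m n : ℕ} {ι : Type*} (s : Finset ι) (F : ι → MvPolynomial ℕ R)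
    (hF : ∀ i ∈ s, HS m n (F i)) : HS m n (∑ i ∈ s, F i) := by
  classical
  induction s using Finset.induction_on with
  | empty => simpa using HS.zero m n
  | insert a s ha ih =>
    rw [Finset.sum_insert ha]
    exact (hF a (Finset.mem_insert_self a s)).add
      (ih fun i hi => hF i (Finset.mem_insert_of_mem hi))

theorem HS.const_mul {m n : ℕ} {F : MvPolynomial ℕ R} (hF : HS m n F) (r : R) :
    HS m n (C r * F) := by
  intro d hd
  rw [coeff_C_mul] at hd
  exact hF d (right_ne_zero_of_mul hd)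

theorem HS.mono {m m' n : ℕ} {F : MvPolynomial ℕ R} (hF : HS m n F) (h : m ≤ m') :
    HS m' n F := by
  intro d hd
  exact ⟨(hF d hd).1, fun i hi => (hF d hd).2 i (h.trans hi)⟩

theorem HS.mul {m n n' : ℕ} {F G : MvPolynomial ℕ R} (hF : HS m n F) (hG : HS m n' G) :
    HS m (n + n') (F * G) := by
  classical
  intro d hd
  rw [coeff_mul] at hd
  obtain ⟨⟨d1, d2⟩, hmem, hne⟩ := Finset.exists_ne_zero_of_sum_ne_zero hd
  have hmem := Finset.HasAntidiagonal.mem_antidiagonal.mp hmem
  simp only at hmem hne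
  have h1 := hF d1 (left_ne_zero_of_mul hne)
  have h2 := hG d2 (right_ne_zero_of_mul hne)
  subst hmem
  refine ⟨by rw [map_add, h1.1, h2.1], fun i hi => ?_⟩
  simp [h1.2 i hi, h2.2 i hi]

theorem HS.const (m : ℕ) (r : R) : HS m 0 (C r : MvPolynomial ℕ R) := by
  classical
  intro d hd
  rw [coeff_C] at hd
  have h0 : d = 0 := by
    by_contra h
    exact hd (if_neg (Ne.symm h))
  subst h0
  exact ⟨by simp, fun i _ => rfl⟩

theorem HS.var {m i : ℕ} (hi : i < m) : HS m 1 (X i : MvPolynomial ℕ R) := by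
  classical
  intro d hd
  rw [coeff_X] at hd
  have h0 : d = Finsupp.single i 1 := by
    by_contra h
    exact hd (if_neg (Ne.symm h))
  subst h0
  refine ⟨by simp, fun j hj => ?_⟩
  rw [Finsupp.single_apply, if_neg]
  omega

theorem HS.var_mul {m n i : ℕ} (hi : i < m) {F : MvPolynomial ℕ R} (hF : HS m n F) :
    HS m (n + 1) (X i * F) := by
  have := (HS.var (R := R) hi).mul hF
  rwa [add_comm] at this


/-! ### Evaluation at `x` -/

variable (x : ℕ → R)

/-- The ideal `(x 0, …, x (m-1))`. -/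
def nI (m : ℕ) : Ideal R := Ideal.span (Set.range fun i : Fin m => x i)

theorem x_mem_nI {m i : ℕ} (hi : i < m) : x i ∈ nI x m :=
  Ideal.subset_span ⟨⟨i, hi⟩, rfl⟩

theorem nI_mono {m m' : ℕ} (h : m ≤ m') : nI x m ≤ nI x m' := by
  apply Ideal.span_le.mpr
  rintro _ ⟨i, rfl⟩
  exact x_mem_nI x (lt_of_lt_of_le i.2 h)

theorem mem_nI_iff {m : ℕ} {b : R} : b ∈ nI x m ↔ ∃ c : Fin m → R, ∑ i : Fin m, c i * x i = b :=
  Ideal.mem_span_range_iff_exists_fun

/-- (F4) the value of a form of degree `n` in `X 0 … X (m-1)` lies in `(x 0 … x (m-1))^n`. -/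
theorem eval_mem_pow {m n : ℕ} {F : MvPolynomial ℕ R} (hF : HS m n F) :
    eval x F ∈ nI x m ^ n := by
  rw [eval_eq]
  refine Ideal.sum_mem _ fun d hd => ?_
  have hd' : coeff d F ≠ 0 := by simpa [mem_support_iff] using hd
  obtain ⟨hdeg, hsupp⟩ := hF d hd'
  refine Ideal.mul_mem_left _ _ ?_
  have h1 : ∏ i ∈ d.support, x i ^ d i ∈ ∏ i ∈ d.support, (nI x m) ^ d i := by
    refine Ideal.prod_mem_prod fun i hi => Ideal.pow_mem_pow (x_mem_nI x ?_) _
    by_contra hlt
    have := hsupp i (not_lt.mp hlt)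
    exact (Finsupp.mem_support_iff.mp hi) this
  rw [Finset.prod_pow_eq_pow_sum] at h1
  have h2 : ∑ i ∈ d.support, d i = n := by
    rw [← hdeg]; rfl
  rwa [h2] at h1

/-- (F1') given (F1) in degree `n`. -/
theorem exists_sum_of_mem_pow_succ {m n : ℕ}
    (h1 : ∀ a ∈ nI x m ^ n, ∃ A : MvPolynomial ℕ R, HS m n A ∧ eval x A = a)
    {u : R} (hu : u ∈ nI x m ^ (n + 1)) :
    ∃ H : Fin m → MvPolynomial ℕ R, (∀ i, HS m n (H i)) ∧ u = ∑ i : Fin m, x i * eval x (H i) := by
  rw [pow_succ'] at hu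
  refine Submodule.mul_induction_on hu ?_ ?_
  · intro b hb a ha
    obtain ⟨c, rfl⟩ := (mem_nI_iff x).mp hb
    obtain ⟨A, hA, rfl⟩ := h1 a ha
    refine ⟨fun i => C (c i) * A, fun i => hA.const_mul _, ?_⟩
    rw [Finset.sum_mul]
    refine Finset.sum_congr rfl fun i _ => ?_
    simp only [map_mul, eval_C]
    ring
  · rintro u v ⟨H, hH, rfl⟩ ⟨K, hK, rfl⟩
    refine ⟨fun i => H i + K i, fun i => (hH i).add (hK i), ?_⟩
    rw [← Finset.sum_add_distrib]
    refine Finset.sum_congr rfl fun i _ => ?_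
    simp only [map_add]
    ring

/-- (F1) every element of `(x 0 … x (m-1))^n` is the value of a form of degree `n`. -/
theorem exists_form_of_mem_pow (m : ℕ) :
    ∀ n : ℕ, ∀ a ∈ nI x m ^ n, ∃ A : MvPolynomial ℕ R, HS m n A ∧ eval x A = a := by
  intro n
  induction n with
  | zero =>
    intro a _
    exact ⟨C a, HS.const m a, by simp⟩
  | succ n ih =>
    intro a ha
    obtain ⟨H, hH, rfl⟩ := exists_sum_of_mem_pow_succ x ih ha
    refine ⟨∑ i : Fin m, X (i : ℕ) * H i, HS.sum _ _ fun i _ => (hH i).var_mul i.2, ?_⟩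
    simp only [map_sum, map_mul, eval_X]

/-- (F1') unconditional. -/
theorem exists_sum_of_mem_pow_succ' {m n : ℕ} {u : R} (hu : u ∈ nI x m ^ (n + 1)) :
    ∃ H : Fin m → MvPolynomial ℕ R, (∀ i, HS m n (H i)) ∧ u = ∑ i : Fin m, x i * eval x (H i) :=
  exists_sum_of_mem_pow_succ x (exists_form_of_mem_pow x m n) hu


/-- The value of a monomial of degree `n` in `X 0 … X (m-1)` lies in `(x 0 … x (m-1))^n`. -/
theorem monomial_val_mem_pow {m n : ℕ} {d : ℕ →₀ ℕ} (hdeg : d.degree = n)
    (hsupp : ∀ i, m ≤ i → d i = 0) : ∏ i ∈ d.support, x i ^ d i ∈ nI x m ^ n := by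
  have h1 : ∏ i ∈ d.support, x i ^ d i ∈ ∏ i ∈ d.support, (nI x m) ^ d i := by
    refine Ideal.prod_mem_prod fun i hi => Ideal.pow_mem_pow (x_mem_nI x ?_) _
    by_contra hlt
    have := hsupp i (not_lt.mp hlt)
    exact (Finsupp.mem_support_iff.mp hi) this
  rw [Finset.prod_pow_eq_pow_sum] at h1
  have h2 : ∑ i ∈ d.support, d i = n := by
    rw [← hdeg]; rfl
  rwa [h2] at h1

/-- If all coefficients of a form of degree `n` lie in `𝔫`, its value lies in `𝔫^(n+1)`. -/
theorem eval_mem_pow_succ {m n : ℕ} {F : MvPolynomial ℕ R} (hF : HS m n F)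
    (hc : ∀ d, coeff d F ∈ nI x m) : eval x F ∈ nI x m ^ (n + 1) := by
  rw [eval_eq, pow_succ']
  refine Ideal.sum_mem _ fun d hd => ?_
  have hd' : coeff d F ≠ 0 := by simpa [mem_support_iff] using hd
  obtain ⟨hdeg, hsupp⟩ := hF d hd'
  exact Ideal.mul_mem_mul (hc d) (monomial_val_mem_pow x hdeg hsupp)

/-- The ideal generated by the `x i * X j - x j * X i`, `i, j < m`. -/
noncomputable def JI (m : ℕ) : Ideal (MvPolynomial ℕ R) :=
  Ideal.span {g | ∃ i j : ℕ, i < m ∧ j < m ∧ g = C (x i) * X j - C (x j) * X i}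

theorem gen_mem_JI {m i j : ℕ} (hi : i < m) (hj : j < m) :
    C (x i) * X j - C (x j) * X i ∈ JI x m :=
  Ideal.subset_span ⟨i, j, hi, hj, rfl⟩

theorem JI_mono {m m' : ℕ} (h : m ≤ m') : JI x m ≤ JI x m' := by
  apply Ideal.span_le.mpr
  rintro _ ⟨i, j, hi, hj, rfl⟩
  exact gen_mem_JI x (lt_of_lt_of_le hi h) (lt_of_lt_of_le hj h)

/-- (F5) all coefficients of an element of `J` lie in `𝔫`. -/
theorem coeff_mem_nI_of_mem_JI {m : ℕ} {F : MvPolynomial ℕ R} (hF : F ∈ JI x m)
    (d : ℕ →₀ ℕ) : coeff d F ∈ nI x m := by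
  have hle : JI x m ≤ Ideal.map (C : R →+* MvPolynomial ℕ R) (nI x m) := by
    apply Ideal.span_le.mpr
    rintro _ ⟨i, j, hi, hj, rfl⟩
    refine Ideal.sub_mem _ (Ideal.mul_mem_right _ _ (Ideal.mem_map_of_mem _ (x_mem_nI x hi)))
      (Ideal.mul_mem_right _ _ (Ideal.mem_map_of_mem _ (x_mem_nI x hj)))
  exact (mem_map_C_iff.mp (hle hF)) d

/-- `x m` is a non-zero-divisor modulo `(x 0, …, x (m-1))`. -/
def RegAt (m : ℕ) : Prop := ∀ u : R, x m * u ∈ nI x m → u ∈ nI x m

/-- The Key Lemma for the first `m` variables. -/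
def KL (m : ℕ) : Prop :=
  ∀ (n : ℕ) (F : MvPolynomial ℕ R), HS m n F → eval x F = 0 → F ∈ JI x m

theorem eq_C_of_HS_zero {m : ℕ} {F : MvPolynomial ℕ R} (hF : HS m 0 F) :
    F = C (coeff 0 F) := by
  classical
  ext d
  rw [coeff_C]
  by_cases hd : d = 0
  · subst hd; simp
  · rw [if_neg (Ne.symm hd)]
    by_contra h
    have := (hF d h).1
    exact hd ((Finsupp.degree_eq_zero_iff d).mp this)

theorem eq_zero_of_HS_zero {m : ℕ} {F : MvPolynomial ℕ R} (hF : HS m 0 F)
    (h0 : eval x F = 0) : F = 0 := by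
  have h := eq_C_of_HS_zero hF
  rw [h, eval_C] at h0
  rw [h, h0, map_zero]

theorem KL_zero : KL x 0 := by
  intro n F hF h0
  have hF0 : HS 0 0 F := by
    intro d hd
    have hd0 : d = 0 := by
      ext i
      simpa using (hF d hd).2 i (Nat.zero_le i)
    subst hd0
    exact ⟨by simp, fun i _ => rfl⟩
  rw [eq_zero_of_HS_zero x hF0 h0]
  exact Ideal.zero_mem _

/-- (NZ) `x m` is a non-zero-divisor modulo every power of `(x 0, …, x (m-1))`. -/
theorem nz_of_KL {m : ℕ} (hKL : KL x m) (hreg : RegAt x m) :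
    ∀ (n : ℕ) (u : R), x m * u ∈ nI x m ^ n → u ∈ nI x m ^ n := by
  intro n
  induction n with
  | zero => intro u _; simp
  | succ n ih =>
    intro u hu
    have hu' : x m * u ∈ nI x m ^ n := Ideal.pow_le_pow_right (Nat.le_succ n) hu
    obtain ⟨U, hU, rfl⟩ := exists_form_of_mem_pow x m n u (ih u hu')
    obtain ⟨V, hV, hsum⟩ := exists_sum_of_mem_pow_succ' x hu
    set W : MvPolynomial ℕ R := C (x m) * U - ∑ i : Fin m, C (x i) * V i with hW
    have hWHS : HS m n W :=
      (hU.const_mul _).sub (HS.sum _ _ fun i _ => (hV i).const_mul _)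
    have hW0 : eval x W = 0 := by
      rw [hW]
      simp only [map_sub, map_mul, eval_C, map_sum]
      rw [hsum]; ring
    have hWJ := hKL n W hWHS hW0
    refine eval_mem_pow_succ x hU fun d => ?_
    apply hreg
    have hc := coeff_mem_nI_of_mem_JI x hWJ d
    rw [hW, coeff_sub, coeff_C_mul, coeff_sum] at hc
    have hs : ∑ i : Fin m, coeff d (C (x i) * V i) ∈ nI x m := by
      refine Ideal.sum_mem _ fun i _ => ?_
      rw [coeff_C_mul]
      exact Ideal.mul_mem_right _ _ (x_mem_nI x i.2)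
    have := Ideal.add_mem _ hc hs
    simpa using this

/-- Splitting off the last variable. -/
theorem HS.divMonomial {m n : ℕ} {F : MvPolynomial ℕ R} (hF : HS (m + 1) (n + 1) F) :
    HS (m + 1) n (F.divMonomial (Finsupp.single m 1)) := by
  intro d hd
  rw [coeff_divMonomial] at hd
  obtain ⟨h1, h2⟩ := hF _ hd
  rw [map_add, Finsupp.degree_single] at h1
  refine ⟨by omega, fun i hi => ?_⟩
  have := h2 i hi
  simp only [Finsupp.coe_add, Pi.add_apply, Nat.add_eq_zero_iff] at this
  exact this.2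

theorem HS.modMonomial {m n : ℕ} {F : MvPolynomial ℕ R} (hF : HS (m + 1) n F) :
    HS m n (F.modMonomial (Finsupp.single m 1)) := by
  intro d hd
  by_cases hle : Finsupp.single m 1 ≤ d
  · rw [coeff_modMonomial_of_le _ hle] at hd
    exact absurd rfl hd
  · rw [coeff_modMonomial_of_not_le _ hle] at hd
    obtain ⟨h1, h2⟩ := hF _ hd
    refine ⟨h1, fun i hi => ?_⟩
    rcases Nat.eq_or_lt_of_le hi with h | h
    · subst h
      by_contra hne
      apply hle
      intro j
      by_cases hj : j = m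
      · subst hj
        simp only [Finsupp.single_eq_same]
        omega
      · rw [Finsupp.single_eq_of_ne (by simpa using hj)]
        exact Nat.zero_le _
    · exact h2 i h

/-- The induction step of the Key Lemma. -/
theorem KL_succ {m : ℕ} (hKL : KL x m) (hreg : RegAt x m) : KL x (m + 1) := by
  intro n
  induction n with
  | zero =>
    intro F hF h0
    rw [eq_zero_of_HS_zero x hF h0]
    exact Ideal.zero_mem _
  | succ n ih =>
    intro F hF h0
    set F' := F.divMonomial (Finsupp.single m 1) with hF'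
    set F'' := F.modMonomial (Finsupp.single m 1) with hF''
    have hdec : X m * F' + F'' = F := divMonomial_add_modMonomial_single F m
    have hHS' : HS (m + 1) n F' := hF.divMonomial
    have hHS'' : HS m (n + 1) F'' := hF.modMonomial
    have hev : x m * eval x F' + eval x F'' = 0 := by
      rw [← h0, ← hdec]; simp
    have hmem : x m * eval x F' ∈ nI x m ^ (n + 1) := by
      have : x m * eval x F' = - eval x F'' := by linear_combination hev
      rw [this]
      exact Ideal.neg_mem_iff _ |>.mpr (eval_mem_pow x hHS'')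
    have hmem' := nz_of_KL x hKL hreg (n + 1) _ hmem
    obtain ⟨H, hH, hsum⟩ := exists_sum_of_mem_pow_succ' x hmem'
    -- `F~ := F' - ∑ x_i H_i`
    set Ft : MvPolynomial ℕ R := F' - ∑ i : Fin m, C (x i) * H i with hFt
    have hFtHS : HS (m + 1) n Ft :=
      hHS'.sub (HS.sum _ _ fun i _ => ((hH i).mono (Nat.le_succ m)).const_mul _)
    have hFt0 : eval x Ft = 0 := by
      rw [hFt]
      simp only [map_sub, map_mul, eval_C, map_sum]
      rw [hsum]; ring
    have hFtJ : Ft ∈ JI x (m + 1) := ih Ft hFtHS hFt0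
    -- `F° := x_m ∑ X_i H_i + F''`
    set Fo : MvPolynomial ℕ R := C (x m) * ∑ i : Fin m, X (i : ℕ) * H i + F'' with hFo
    have hFoHS : HS m (n + 1) Fo :=
      ((HS.sum _ _ fun i _ => (hH i).var_mul i.2).const_mul _).add hHS''
    have hFo0 : eval x Fo = 0 := by
      rw [hFo]
      simp only [map_add, map_mul, eval_C, map_sum, eval_X]
      rw [← hev, hsum]
    have hFoJ : Fo ∈ JI x (m + 1) := JI_mono x (Nat.le_succ m) (hKL (n + 1) Fo hFoHS hFo0)
    have hkey : F = X m * Ft + ∑ i : Fin m, (C (x i) * X m - C (x m) * X (i : ℕ)) * H i + Fo := by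
      rw [← hdec, hFt, hFo]
      simp only [mul_sub, Finset.mul_sum, sub_mul, Finset.sum_sub_distrib]
      have e1 : ∑ i : Fin m, X m * (C (x i) * H i) = ∑ i : Fin m, C (x i) * X m * H i :=
        Finset.sum_congr rfl fun i _ => by ring
      have e2 : ∑ i : Fin m, C (x m) * (X (i : ℕ) * H i)
          = ∑ i : Fin m, C (x m) * X (i : ℕ) * H i :=
        Finset.sum_congr rfl fun i _ => by ring
      rw [e1, e2]; ring
    rw [hkey]
    refine Ideal.add_mem _ (Ideal.add_mem _ (Ideal.mul_mem_left _ _ hFtJ) ?_) hFoJ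
    refine Ideal.sum_mem _ fun i _ => Ideal.mul_mem_right _ _ ?_
    exact gen_mem_JI x (lt_of_lt_of_le i.2 (Nat.le_succ m)) (Nat.lt_succ_self m)

/-- **Key Lemma** (ideals generated by a regular sequence are of linear type). -/
theorem keyLemma {r : ℕ} (hreg : ∀ m, m < r → RegAt x m) : KL x r := by
  induction r with
  | zero => exact KL_zero x
  | succ r ih =>
    exact KL_succ x (ih fun m hm => hreg m (Nat.lt_succ_of_lt hm)) (hreg r (Nat.lt_succ_self r))

end Fermat.Agent.S38.H250
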