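/-
S38 (Ihara avoidance), local rings at `q`: the completed Rees algebra of a regular sequence.

`R` a commutative ring, `x : Fin r → R` a regular sequence.  The kernel of
`ψ : R[[X_0..X_{r-1}]] → R[[T]]`, `X_i ↦ x_i T`, is the ideal generated by the
`x_i X_j - x_j X_i`.  Hence, if `R` is a domain, `R[[X]] / (x_i X_j - x_j X_i)` is a domain.

Mathlib only (uses `KeyLemma.lean`).
-/
import Fermat.Agent.S38.H250.KeyLemma

set_option autoImplicit false

open MvPowerSeries

namespace Fermat.Agent.S38.H250

variable {R : Type*} [CommRing R] {r : ℕ} (x : Fin r → R)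

/-- The generators `x_i X_j - x_j X_i` (as power series). -/
noncomputable def genS (p : Fin r × Fin r) : MvPowerSeries (Fin r) R :=
  C (x p.1) * X p.2 - C (x p.2) * X p.1

/-- The ideal `(x_i X_j - x_j X_i)` of `R[[X_0..X_{r-1}]]`. -/
noncomputable def reesIdeal : Ideal (MvPowerSeries (Fin r) R) :=
  Ideal.span (Set.range (genS x))

/-- `ψ : R[[X_0..X_{r-1}]] → R[[T]]`, `X_i ↦ x_i T`. -/
noncomputable def reesHom : MvPowerSeries (Fin r) R →+* PowerSeries R :=
  (MvPowerSeries.rename (R := R) (fun _ : Fin r => ())).toRingHom.comp (MvPowerSeries.rescale x)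

theorem mapDomain_unit (d : Fin r →₀ ℕ) :
    Finsupp.mapDomain (fun _ : Fin r => ()) d = Finsupp.single () d.degree := by
  ext
  rw [Finsupp.mapDomain, Finsupp.sum_apply, Finsupp.single_eq_same]
  simp only [Finsupp.single_eq_same]
  rfl

/-- The finite set of exponents of degree `n`. -/
noncomputable def degSet (r n : ℕ) : Finset (Fin r →₀ ℕ) :=
  (Filter.TendstoCofinite.finite_preimage_singleton
    (Finsupp.mapDomain (fun _ : Fin r => ())) (Finsupp.single () n)).toFinset

theorem mem_degSet {n : ℕ} {d : Fin r →₀ ℕ} : d ∈ degSet r n ↔ d.degree = n := by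
  rw [degSet, Set.Finite.mem_toFinset, Set.mem_preimage, Set.mem_singleton_iff, mapDomain_unit]
  constructor
  · intro h
    have := congrArg (fun f => f ()) h
    simpa using this
  · intro h; rw [h]

theorem coeff_reesHom (F : MvPowerSeries (Fin r) R) (n : ℕ) :
    PowerSeries.coeff n (reesHom x F)
      = ∑ d ∈ degSet r n, (d.prod fun i k => x i ^ k) * MvPowerSeries.coeff d F := by
  rw [reesHom, RingHom.comp_apply, PowerSeries.coeff]
  change MvPowerSeries.coeff (Finsupp.single () n)
    (MvPowerSeries.rename (fun _ : Fin r => ()) (MvPowerSeries.rescale x F)) = _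
  rw [MvPowerSeries.coeff_rename]
  refine Finset.sum_congr rfl fun d _ => ?_
  rw [MvPowerSeries.coeff_rescale]


theorem C_mul_X_eq_monomial (a : R) (j : Fin r) :
    (C a * X j : MvPowerSeries (Fin r) R) = monomial (Finsupp.single j 1) a := by
  rw [X_def, ← monomial_zero_eq_C_apply, monomial_mul_monomial, zero_add, mul_one]

theorem genS_eq_monomial (p : Fin r × Fin r) :
    genS x p = monomial (Finsupp.single p.2 1) (x p.1) - monomial (Finsupp.single p.1 1) (x p.2) := by
  rw [genS, C_mul_X_eq_monomial, C_mul_X_eq_monomial]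

theorem rescale_monomial' (d : Fin r →₀ ℕ) (a : R) :
    MvPowerSeries.rescale x (monomial d a)
      = monomial d ((d.prod fun i k => x i ^ k) * a) := by
  classical
  ext e
  rw [coeff_rescale, coeff_monomial, coeff_monomial]
  split_ifs with h
  · subst h; rfl
  · simp

theorem reesHom_monomial (d : Fin r →₀ ℕ) (a : R) :
    reesHom x (monomial d a)
      = MvPowerSeries.monomial (Finsupp.single () d.degree) ((d.prod fun i k => x i ^ k) * a) := by
  rw [reesHom, RingHom.comp_apply, rescale_monomial']
  change MvPowerSeries.rename (fun _ : Fin r => ()) _ = _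
  rw [MvPowerSeries.rename_monomial, mapDomain_unit]

theorem reesHom_genS (p : Fin r × Fin r) : reesHom x (genS x p) = 0 := by
  rw [genS_eq_monomial, map_sub, reesHom_monomial, reesHom_monomial]
  simp only [Finsupp.degree_single, Finsupp.prod_single_index, pow_zero, pow_one]
  rw [mul_comm, sub_self]

theorem reesIdeal_le_ker : reesIdeal x ≤ RingHom.ker (reesHom x) := by
  apply Ideal.span_le.mpr
  rintro _ ⟨p, rfl⟩
  exact reesHom_genS x p


/-! ### Transfer to the Key Lemma -/

/-- Extension of `x` by zero to all of `ℕ`. -/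
def xN (i : ℕ) : R := if h : i < r then x ⟨i, h⟩ else 0

theorem xN_val (i : Fin r) : xN x (i : ℕ) = x i := by
  rw [xN, dif_pos i.2]

/-- The degree-`n` part of `F`, as a polynomial in `ℕ`-indexed variables. -/
noncomputable def polyN (F : MvPowerSeries (Fin r) R) (n : ℕ) : MvPolynomial ℕ R :=
  ∑ d ∈ degSet r n, MvPolynomial.monomial (d.mapDomain Fin.val) (MvPowerSeries.coeff d F)

theorem HS_polyN (F : MvPowerSeries (Fin r) R) (n : ℕ) : HS r n (polyN F n) := by
  classical
  refine HS.sum _ _ fun d hd => ?_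
  intro e he
  rw [MvPolynomial.coeff_monomial] at he
  have hed : d.mapDomain Fin.val = e := by
    by_contra h
    exact he (if_neg h)
  subst hed
  refine ⟨by rw [Finsupp.degree_mapDomain]; exact mem_degSet.mp hd, fun i hi => ?_⟩
  apply Finsupp.mapDomain_of_notMem_range
  rintro ⟨j, rfl⟩
  exact absurd j.2 (not_lt.mpr hi)

theorem prod_mapDomain_val {M : Type*} [CommMonoid M] (y : ℕ → M) (d : Fin r →₀ ℕ) :
    ((d.mapDomain Fin.val).prod fun i k => y i ^ k) = d.prod fun i k => y (i : ℕ) ^ k := by
  rw [Finsupp.prod_mapDomain_index]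
  · intro b; exact pow_zero _
  · intro b m₁ m₂; exact pow_add _ _ _

theorem eval_polyN (F : MvPowerSeries (Fin r) R) (n : ℕ) :
    MvPolynomial.eval (xN x) (polyN F n) = PowerSeries.coeff n (reesHom x F) := by
  rw [coeff_reesHom, polyN, map_sum]
  refine Finset.sum_congr rfl fun d _ => ?_
  rw [MvPolynomial.eval_monomial, prod_mapDomain_val, mul_comm]
  congr 1
  refine Finsupp.prod_congr fun i _ => ?_
  rw [xN_val]

/-- The degree-`n` part of `F`, as a power series. -/
noncomputable def homPart (F : MvPowerSeries (Fin r) R) (n : ℕ) : MvPowerSeries (Fin r) R :=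
  ∑ d ∈ degSet r n, monomial d (MvPowerSeries.coeff d F)

theorem coeff_homPart (F : MvPowerSeries (Fin r) R) (n : ℕ) (e : Fin r →₀ ℕ) :
    MvPowerSeries.coeff e (homPart F n) = if e.degree = n then MvPowerSeries.coeff e F else 0 := by
  classical
  rw [homPart, map_sum]
  simp only [coeff_monomial]
  rw [Finset.sum_ite_eq (degSet r n) e (fun d => MvPowerSeries.coeff d F)]
  simp only [mem_degSet]

/-- The map back from `ℕ`-indexed polynomials to power series in `Fin r` variables. -/
noncomputable def backHom : MvPolynomial ℕ R →+* MvPowerSeries (Fin r) R :=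
  (MvPolynomial.coeToMvPowerSeries.ringHom).comp
    (MvPolynomial.aeval (R := R) (S₁ := MvPolynomial (Fin r) R)
      (fun i : ℕ => if h : i < r then MvPolynomial.X ⟨i, h⟩ else 0)).toRingHom

theorem backHom_C (a : R) : backHom (r := r) (MvPolynomial.C a) = C a := by
  rw [backHom, RingHom.comp_apply]
  change ((MvPolynomial.aeval _ (MvPolynomial.C a) : MvPolynomial (Fin r) R) :
    MvPowerSeries (Fin r) R) = _
  rw [MvPolynomial.aeval_C]
  exact MvPolynomial.coe_C a

theorem backHom_X (i : Fin r) : backHom (R := R) (MvPolynomial.X (i : ℕ)) = X i := by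
  rw [backHom, RingHom.comp_apply]
  change ((MvPolynomial.aeval _ (MvPolynomial.X (i : ℕ)) : MvPolynomial (Fin r) R) :
    MvPowerSeries (Fin r) R) = _
  rw [MvPolynomial.aeval_X, dif_pos i.2]
  exact MvPolynomial.coe_X i

theorem C_mul_prod_X_eq_monomial (d : Fin r →₀ ℕ) (a : R) :
    (C a * d.prod fun i k => (X i : MvPowerSeries (Fin r) R) ^ k) = monomial d a := by
  rw [← MvPolynomial.coe_C, show (d.prod fun i k => (X i : MvPowerSeries (Fin r) R) ^ k)
      = ((d.prod fun i k => (MvPolynomial.X i : MvPolynomial (Fin r) R) ^ k :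
          MvPolynomial (Fin r) R) : MvPowerSeries (Fin r) R) from ?_,
    ← MvPolynomial.coe_mul, ← MvPolynomial.monomial_eq, MvPolynomial.coe_monomial]
  rw [← MvPolynomial.coeToMvPowerSeries.ringHom_apply, map_finsuppProd]
  simp only [map_pow, MvPolynomial.coeToMvPowerSeries.ringHom_apply, MvPolynomial.coe_X]

theorem backHom_monomial (d : Fin r →₀ ℕ) (a : R) :
    backHom (MvPolynomial.monomial (d.mapDomain Fin.val) a) = monomial d a := by
  rw [MvPolynomial.monomial_eq, map_mul, backHom_C, map_finsuppProd]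
  simp only [map_pow]
  rw [prod_mapDomain_val (fun i => backHom (r := r) (R := R) (MvPolynomial.X i)) d]
  simp only [backHom_X]
  exact C_mul_prod_X_eq_monomial d a

theorem backHom_polyN (F : MvPowerSeries (Fin r) R) (n : ℕ) :
    backHom (polyN F n) = homPart F n := by
  rw [polyN, homPart, map_sum]
  exact Finset.sum_congr rfl fun d _ => backHom_monomial d _

theorem backHom_mem (G : MvPolynomial ℕ R) (hG : G ∈ JI (xN x) r) :
    backHom G ∈ reesIdeal x := by
  have hle : JI (xN x) r ≤ Ideal.comap backHom (reesIdeal x) := by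
    apply Ideal.span_le.mpr
    rintro _ ⟨i, j, hi, hj, rfl⟩
    change backHom _ ∈ reesIdeal x
    have key : backHom (r := r) (MvPolynomial.C (xN x i) * MvPolynomial.X j
        - MvPolynomial.C (xN x j) * MvPolynomial.X i) = genS x (⟨i, hi⟩, ⟨j, hj⟩) := by
      rw [map_sub, map_mul, map_mul, backHom_C, backHom_C, genS]
      have h1 : backHom (r := r) (R := R) (MvPolynomial.X j) = X ⟨j, hj⟩ := backHom_X ⟨j, hj⟩
      have h2 : backHom (r := r) (R := R) (MvPolynomial.X i) = X ⟨i, hi⟩ := backHom_X ⟨i, hi⟩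
      have h3 : xN x i = x ⟨i, hi⟩ := xN_val x ⟨i, hi⟩
      have h4 : xN x j = x ⟨j, hj⟩ := xN_val x ⟨j, hj⟩
      rw [h1, h2, h3, h4]
    rw [key]
    exact Ideal.subset_span ⟨(⟨i, hi⟩, ⟨j, hj⟩), rfl⟩
  exact hle hG

/-- Every homogeneous part of an element of the kernel lies in the ideal. -/
theorem homPart_mem (hreg : ∀ m, m < r → RegAt (xN x) m) {F : MvPowerSeries (Fin r) R}
    (hF : reesHom x F = 0) (n : ℕ) : homPart F n ∈ reesIdeal x := by
  rw [← backHom_polyN]
  refine backHom_mem x _ (keyLemma (xN x) hreg n _ (HS_polyN F n) ?_)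
  rw [eval_polyN, hF, map_zero]


/-! ### Assembling the cofactors degree by degree -/

theorem coeff_mul_genS (B : MvPowerSeries (Fin r) R) (p : Fin r × Fin r) (d : Fin r →₀ ℕ) :
    MvPowerSeries.coeff d (B * genS x p)
      = (if Finsupp.single p.2 1 ≤ d then
          MvPowerSeries.coeff (d - Finsupp.single p.2 1) B * x p.1 else 0)
        - (if Finsupp.single p.1 1 ≤ d then
          MvPowerSeries.coeff (d - Finsupp.single p.1 1) B * x p.2 else 0) := by
  rw [genS_eq_monomial, mul_sub, map_sub, coeff_mul_monomial, coeff_mul_monomial]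

theorem degree_tsub_single_add_one {d : Fin r →₀ ℕ} {j : Fin r} (h : Finsupp.single j 1 ≤ d) :
    (d - Finsupp.single j 1).degree + 1 = d.degree := by
  conv_rhs => rw [← tsub_add_cancel_of_le h]
  rw [map_add, Finsupp.degree_single]

theorem coeff_mul_genS_congr (A B : MvPowerSeries (Fin r) R) (p : Fin r × Fin r)
    (d : Fin r →₀ ℕ)
    (h : ∀ e : Fin r →₀ ℕ, e.degree + 1 = d.degree →
      MvPowerSeries.coeff e B = MvPowerSeries.coeff e A) :
    MvPowerSeries.coeff d (B * genS x p) = MvPowerSeries.coeff d (A * genS x p) := by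
  rw [coeff_mul_genS, coeff_mul_genS]
  congr 1
  · split_ifs with h1
    · rw [h _ (degree_tsub_single_add_one h1)]
    · rfl
  · split_ifs with h1
    · rw [h _ (degree_tsub_single_add_one h1)]
    · rfl

theorem mem_reesIdeal_of_homPart_mem {F : MvPowerSeries (Fin r) R}
    (h : ∀ n, homPart F n ∈ reesIdeal x) : F ∈ reesIdeal x := by
  have h' : ∀ n, ∃ A : Fin r × Fin r → MvPowerSeries (Fin r) R,
      ∑ p, A p * genS x p = homPart F n :=
    fun n => Ideal.mem_span_range_iff_exists_fun.mp (h n)
  choose A hA using h'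
  let B : Fin r × Fin r → MvPowerSeries (Fin r) R :=
    fun p => fun e => MvPowerSeries.coeff e (A (e.degree + 1) p)
  have hBc : ∀ p e, MvPowerSeries.coeff e (B p) = MvPowerSeries.coeff e (A (e.degree + 1) p) :=
    fun p e => rfl
  have hB : F = ∑ p, B p * genS x p := by
    ext d
    rw [map_sum]
    have hcongr : ∀ p, MvPowerSeries.coeff d (B p * genS x p)
        = MvPowerSeries.coeff d (A d.degree p * genS x p) := fun p =>
      coeff_mul_genS_congr x _ _ p d (fun e he => by rw [hBc, he])
    rw [Finset.sum_congr rfl fun p _ => hcongr p, ← map_sum, hA, coeff_homPart, if_pos rfl]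
  rw [hB]
  exact Ideal.sum_mem _ fun p _ => Ideal.mul_mem_left _ _ (Ideal.subset_span ⟨p, rfl⟩)

/-! ### Main results -/

/-- **The kernel of `X_i ↦ x_i T` is generated by the `x_i X_j - x_j X_i`** when
`x` is a regular sequence. -/
theorem ker_reesHom (hreg : ∀ m, m < r → RegAt (xN x) m) :
    RingHom.ker (reesHom x) = reesIdeal x :=
  le_antisymm
    (fun _ hF => mem_reesIdeal_of_homPart_mem x (homPart_mem x hreg ((RingHom.mem_ker).mp hF)))
    (reesIdeal_le_ker x)

/-- If `R` is a domain and `x` is a regular sequence, `(x_i X_j - x_j X_i)` is a prime ideal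
of `R[[X_0..X_{r-1}]]`. -/
theorem reesIdeal_isPrime [IsDomain R] (hreg : ∀ m, m < r → RegAt (xN x) m) :
    (reesIdeal x).IsPrime := by
  rw [← ker_reesHom x hreg]
  exact RingHom.ker_isPrime _

/-- The completed Rees algebra `R[[X]] / (x_i X_j - x_j X_i)` of a regular sequence in a domain
is a domain. -/
theorem reesQuotient_isDomain [IsDomain R] (hreg : ∀ m, m < r → RegAt (xN x) m) :
    IsDomain (MvPowerSeries (Fin r) R ⧸ reesIdeal x) :=
  haveI := reesIdeal_isPrime x hreg
  Ideal.Quotient.isDomain _

end Fermat.Agent.S38.H250
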